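import Mathlib
import Fermat.Agent.LT.T6.H60.EllUnrSpec2
import Fermat.Agent.LT.T6.H340.VertexSum
import Fermat.Agent.LT.T6.H166.TwCent
import Fermat.Agent.LT.H129.Newton

/-!
# Row LT, tower T6, leaves T6.13.2a `VertSumGeoC` and T6.13.3a `VertSumTwC` (helper887), OFF-MAIN

Registry row 1131 (sub-spec of helper60, `LT/T6/H60/EllUnrSpec2.lean`, sha256 75a22aba).

The (twisted) orbit sum at a regular elliptic `γ` with `k[γ]/k` unramified is the plain sum over
the vertices of the tree.  Assets used (vendored byte-identical):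

* helper340 `LT/T6/H340/VertexSum.lean`: `orbSum_eq_vertexSum340`, `twOrbSum_eq_vertexSum340`,
  `hdec_twc340` (orbit sum = vertex sum, given the decomposition `T = ϖ^ℤ × T^c`);
* helper129 `LT/H129/Newton.lean`: `newtonC129` (two slopes give a root);
* helper166 `LT/T6/H166/TwCent.lean`: `twCentC166` (the twisted centraliser).

Proved here: the decomposition of the centraliser (`hdec_geo887`, `hdec_tw887`): every `t` in the
centraliser of `γ` has `ord det t` even (`¬ HasRamUnif`), and after scaling to unit determinant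
its trace is integral (`trace_le_one887`: otherwise `newtonC129` gives an eigenvalue of `t` in
`k`, hence one of `γ`, because `t = a + b γ`).
-/

set_option autoImplicit false
set_option linter.unusedSectionVars false

open scoped Matrix

noncomputable section

namespace Fermat.Agent.LT.T6.H887

open Fermat.Agent.LT.T6 Fermat.Agent.LT.T6.H60 Fermat.Agent.LT.T6.H340 Fermat.Agent.LT.T6.H166
open Fermat.Agent.LT.T6.H159 Fermat.Agent.LT.H129

/-! ### 1. The shape of the invariant -/

theorem invOf60_eq887 {D a b : ℤ} {d : ℕ} (h1 : (d : ℤ) = a - b) (h2 : a + b = D) :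
    invOf60 D d = (a, b) := by
  unfold invOf60
  ext
  · simp only; omega
  · simp only; omega

section Shape

variable {k : Type} [Field k] [Valued k Γ₀]

theorem twInv_eq_invOf887 (s : k ≃+* k) (hs : ∀ y : k, Valued.v (s y) = Valued.v y)
    (δ : GL (Fin 2) k) (p : BTVert340 k) :
    twInv340 s hs δ p = invOf60 (ordDet δ) (btDist340 p (btTw340 s hs δ p)) := by
  obtain ⟨h1, h2⟩ := (twInv340_eq_iff s hs δ p (twInv340 s hs δ p)).mp rfl
  exact (invOf60_eq887 h1 h2).symm

theorem inv_eq_invOf887 (γ : GL (Fin 2) k) (p : BTVert340 k) :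
    inv340 γ p = invOf60 (ordDet γ) (btDist340 p (btMul340 γ p)) := by
  obtain ⟨h1, h2⟩ := (inv340_eq_iff γ p (inv340 γ p)).mp rfl
  exact (invOf60_eq887 h1 h2).symm

end Shape

/-! ### 2. The centraliser of an elliptic element is `k + k γ` -/

section Cent

variable {k : Type} [Field k]

theorem cent_form887 (G T : Matrix (Fin 2) (Fin 2) k) (h : T * G = G * T) (h01 : G 0 1 ≠ 0) :
    T = (T 0 0 - T 0 1 / G 0 1 * G 0 0) • (1 : Matrix (Fin 2) (Fin 2) k)
      + (T 0 1 / G 0 1) • G := by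
  have e00 := congrFun (congrFun h 0) 0
  have e01 := congrFun (congrFun h 0) 1
  simp only [Matrix.mul_apply, Fin.sum_univ_two] at e00 e01
  ext i j
  fin_cases i <;> fin_cases j
  · simp
  · simp [div_mul_cancel₀ _ h01]
  · simp
    field_simp
    linear_combination -e00
  · simp
    field_simp
    linear_combination -e01

theorem trace_form887 (G : Matrix (Fin 2) (Fin 2) k) (a b : k) :
    (a • (1 : Matrix (Fin 2) (Fin 2) k) + b • G).trace = 2 * a + b * G.trace := by
  simp [Matrix.trace_fin_two]; ring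

theorem det_form887 (G : Matrix (Fin 2) (Fin 2) k) (a b : k) :
    (a • (1 : Matrix (Fin 2) (Fin 2) k) + b • G).det = a ^ 2 + a * b * G.trace + b ^ 2 * G.det := by
  simp [Matrix.trace_fin_two, Matrix.det_fin_two]; ring

end Cent

/-! ### 3. The decomposition of the centraliser (untwisted) -/

section Local

variable {k : Type} [Field k] [Valued k Γ₀]

/-- No eigenvalue in `k`: the upper right entry is not zero. -/
theorem entry01_ne_zero887 (γ : GL (Fin 2) k) (hne : ¬ HasEigen k γ) :
    (γ : Matrix (Fin 2) (Fin 2) k) 0 1 ≠ 0 := by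
  intro h0
  apply hne
  refine ⟨(γ : Matrix (Fin 2) (Fin 2) k) 0 0, ?_⟩
  rw [Matrix.trace_fin_two, Matrix.det_fin_two, h0]
  ring

theorem v_two_le_one887 : Valued.v (2 : k) ≤ 1 := by
  have e : (2 : k) = 1 + 1 := by norm_num
  rw [e]
  exact le_trans (Valuation.map_add _ _ _) (by simp)

/-- An element of the centraliser of an elliptic `γ` with unit determinant has integral trace. -/
theorem trace_le_one887 {q : ℕ} (hk : IsLocalField k q) (γ t : GL (Fin 2) k)
    (h : t * γ = γ * t) (hne : ¬ HasEigen k γ)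
    (hdet : Valued.v (t : Matrix (Fin 2) (Fin 2) k).det = 1) :
    Valued.v (t : Matrix (Fin 2) (Fin 2) k).trace ≤ 1 := by
  by_contra hlt
  rw [not_le] at hlt
  obtain ⟨x, hx⟩ := newtonC129 k q hk _ _ hdet hlt
  have h01 := entry01_ne_zero887 γ hne
  have hTG : (t : Matrix (Fin 2) (Fin 2) k) * (γ : Matrix (Fin 2) (Fin 2) k)
      = (γ : Matrix (Fin 2) (Fin 2) k) * (t : Matrix (Fin 2) (Fin 2) k) := by
    rw [← Matrix.GeneralLinearGroup.coe_mul, h, Matrix.GeneralLinearGroup.coe_mul]
  have hform := cent_form887 _ _ hTG h01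
  generalize ha : (t : Matrix (Fin 2) (Fin 2) k) 0 0
      - (t : Matrix (Fin 2) (Fin 2) k) 0 1 / (γ : Matrix (Fin 2) (Fin 2) k) 0 1
        * (γ : Matrix (Fin 2) (Fin 2) k) 0 0 = a at hform
  generalize hb : (t : Matrix (Fin 2) (Fin 2) k) 0 1 / (γ : Matrix (Fin 2) (Fin 2) k) 0 1 = b
    at hform
  have htr : (t : Matrix (Fin 2) (Fin 2) k).trace
      = 2 * a + b * (γ : Matrix (Fin 2) (Fin 2) k).trace :=
    (congrArg Matrix.trace hform).trans (trace_form887 _ a b)
  have hde : (t : Matrix (Fin 2) (Fin 2) k).det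
      = a ^ 2 + a * b * (γ : Matrix (Fin 2) (Fin 2) k).trace
        + b ^ 2 * (γ : Matrix (Fin 2) (Fin 2) k).det :=
    (congrArg Matrix.det hform).trans (det_form887 _ a b)
  by_cases hb0 : b = 0
  · rw [hb0] at htr hde
    simp only [zero_mul, add_zero, mul_zero, ne_eq, OfNat.ofNat_ne_zero, not_false_eq_true,
      zero_pow] at htr hde
    rw [hde, map_pow] at hdet
    rw [htr, map_mul] at hlt
    have hva : Valued.v a ≤ 1 := by
      by_contra hgt
      rw [not_le] at hgt
      have : (1 : Γ₀) < Valued.v a ^ 2 := one_lt_pow' hgt (by norm_num)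
      rw [hdet] at this
      exact lt_irrefl _ this
    have : Valued.v (2 : k) * Valued.v a ≤ 1 := by
      calc Valued.v (2 : k) * Valued.v a ≤ 1 * 1 := mul_le_mul' v_two_le_one887 hva
        _ = 1 := one_mul 1
    exact absurd hlt (not_lt.mpr this)
  · apply hne
    refine ⟨(x - a) / b, ?_⟩
    rw [htr, hde] at hx
    field_simp
    linear_combination hx

/-- `k[γ]/k` unramified: every element of the centraliser has a scalar multiple of unit
determinant. -/
theorem exists_unit_scal887 {q : ℕ} (hk : IsLocalField k q) (γ t : GL (Fin 2) k)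
    (h : t * γ = γ * t) (hnr : ¬ HasRamUnif k γ) :
    ∃ (z : k) (hz : z ≠ 0),
      Valued.v ((scal340 z hz * t : GL (Fin 2) k) : Matrix (Fin 2) (Fin 2) k).det = 1 := by
  obtain ⟨ϖ, hϖ⟩ := hk.unif
  have hϖ0 : ϖ ≠ 0 := unif_ne_zero340 hϖ
  have hd0 : Valued.v (t : Matrix (Fin 2) (Fin 2) k).det ≠ 0 := vdet_ne_zero340 t
  have hvn : Valued.v (t : Matrix (Fin 2) (Fin 2) k).det
      = WithZero.exp (WithZero.log (Valued.v (t : Matrix (Fin 2) (Fin 2) k).det)) :=
    (WithZero.exp_log hd0).symm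
  generalize WithZero.log (Valued.v (t : Matrix (Fin 2) (Fin 2) k).det) = n at hvn
  have key : ∀ m : ℤ,
      Valued.v ((scal340 (ϖ ^ m) (zpow_ne_zero m hϖ0) * t : GL (Fin 2) k)
        : Matrix (Fin 2) (Fin 2) k).det = WithZero.exp (n - 2 * m) := by
    intro m
    rw [Matrix.GeneralLinearGroup.coe_mul, Matrix.det_mul, det_scal340, map_mul, map_mul,
      map_zpow₀, hϖ, hvn, ← WithZero.exp_zsmul, ← WithZero.exp_add, ← WithZero.exp_add]
    congr 1
    simp only [smul_eq_mul]
    ring
  have hcomm : ∀ m : ℤ, (scal340 (ϖ ^ m) (zpow_ne_zero m hϖ0) * t) * γ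
      = γ * (scal340 (ϖ ^ m) (zpow_ne_zero m hϖ0) * t) := by
    intro m
    rw [mul_assoc, h, ← mul_assoc, scal340_comm _ _ γ, mul_assoc]
  rcases Int.even_or_odd' n with ⟨m, hm | hm⟩
  · refine ⟨ϖ ^ m, zpow_ne_zero m hϖ0, ?_⟩
    rw [key m, hm]
    simp
  · exfalso
    apply hnr
    refine ⟨scal340 (ϖ ^ (m + 1)) (zpow_ne_zero _ hϖ0) * t, hcomm (m + 1), ?_⟩
    rw [key (m + 1), hm]
    congr 1
    ring

/-- **The decomposition `T = ϖ^ℤ × T^c`** of the centraliser of an elliptic `γ` with `k[γ]/k`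
unramified. -/
theorem hdec_geo887 {q : ℕ} (hk : IsLocalField k q) (γ : GL (Fin 2) k)
    (hne : ¬ HasEigen k γ) (hnr : ¬ HasRamUnif k γ) :
    ∀ t : GL (Fin 2) k, t * γ = γ * t →
      ∃ (z : k) (hz : z ≠ 0), InTwCentC (RingEquiv.refl k) γ (scal340 z hz * t) := by
  intro t ht
  obtain ⟨z, hz, hdet⟩ := exists_unit_scal887 hk γ t ht hnr
  have hcomm : (scal340 z hz * t) * γ = γ * (scal340 z hz * t) := by
    rw [mul_assoc, ht, ← mul_assoc, scal340_comm z hz γ, mul_assoc]
  exact ⟨z, hz, (inTwCent_refl_iff340 γ _).mpr hcomm,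
    trace_le_one887 hk γ _ hcomm hne hdet, hdet⟩

end Local

/-- **T6.13.2a `VertSumGeoC`**, unconditional. -/
theorem vertSumGeoC887 : VertSumGeoC := by
  intro k _ _ q hk γ _ hne hnr f c' hc S hS
  have h := orbSum_eq_vertexSum340 γ (hdec_geo887 hk γ hne hnr) (fun lam => f lam) c' hc S
    (fun p hp => hS p (by rwa [inv_eq_invOf887] at hp))
  rw [h]
  exact Finset.sum_congr rfl (fun p _ => by rw [inv_eq_invOf887])

/-! ### 4. The twisted case -/

/-- The twisted norm of a twisted conjugate. -/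
theorem twN_twc887 {Γ : Type} [Group Γ] (s : Γ →* Γ) (δ x : Γ) (n : ℕ) :
    twN s n (x⁻¹ * δ * s x) = x⁻¹ * twN s n δ * (s^[n]) x := by
  induction n with
  | zero => simp [twN_zero166]
  | succ n ih =>
    rw [twN_succ166, ih, twN_succ166, Function.iterate_succ_apply']
    simp only [map_mul, map_inv]
    group

section Twisted

variable {k k' : Type} [Field k] [Field k'] [Valued k Γ₀] [Valued k' Γ₀]

theorem map_scal887 (i : k →+* k') (z : k) (hz : z ≠ 0) :
    Matrix.GeneralLinearGroup.map i (scal340 z hz)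
      = scal340 (i z) ((map_ne_zero i).mpr hz) := by
  apply Matrix.GeneralLinearGroup.ext
  intro a b
  rw [Matrix.GeneralLinearGroup.map_apply, coe_scal340, coe_scal340]
  fin_cases a <;> fin_cases b <;> simp

theorem trace_map887 (i : k →+* k') (g : GL (Fin 2) k) :
    ((Matrix.GeneralLinearGroup.map i g : GL (Fin 2) k') : Matrix (Fin 2) (Fin 2) k').trace
      = i (g : Matrix (Fin 2) (Fin 2) k).trace := by
  rw [Matrix.trace_fin_two, Matrix.trace_fin_two, map_add,
    Matrix.GeneralLinearGroup.map_apply, Matrix.GeneralLinearGroup.map_apply]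

theorem det_map887 (i : k →+* k') (g : GL (Fin 2) k) :
    ((Matrix.GeneralLinearGroup.map i g : GL (Fin 2) k') : Matrix (Fin 2) (Fin 2) k').det
      = i (g : Matrix (Fin 2) (Fin 2) k).det := by
  rw [Matrix.det_fin_two, Matrix.det_fin_two, map_sub, map_mul, map_mul,
    Matrix.GeneralLinearGroup.map_apply, Matrix.GeneralLinearGroup.map_apply,
    Matrix.GeneralLinearGroup.map_apply, Matrix.GeneralLinearGroup.map_apply]

/-- The decomposition of the twisted centraliser of `δ` when `N δ = γ` exactly. -/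
theorem hdec_tw_exact887 {q l : ℕ} {i : k →+* k'} {s : k' ≃+* k'} (hk : IsLocalField k q)
    (hext : IsLocalExt k k' l 1 i s) (δ : GL (Fin 2) k') (γ : GL (Fin 2) k) (hreg : IsReg γ)
    (hne : ¬ HasEigen k γ) (hnr : ¬ HasRamUnif k γ)
    (hN : twNorm s l δ = Matrix.GeneralLinearGroup.map i γ) :
    ∀ t, InTwCent s δ t →
      ∃ (z : k') (hz : z ≠ 0), s z = z ∧ InTwCentC s δ (scal340 z hz * t) := by
  intro t ht
  obtain ⟨t0, ht0, rfl⟩ := (twCentC166 k k' l i s hext.cyc δ γ hreg hN t).mp ht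
  obtain ⟨z0, hz0, hC⟩ := hdec_geo887 hk γ hne hnr t0 ht0
  have hz : i z0 ≠ 0 := (map_ne_zero i).mpr hz0
  have hsz : s (i z0) = i z0 := hext.cyc.fix_i z0
  refine ⟨i z0, hz, hsz, ?_, ?_, ?_⟩
  · rw [inTwCent_iff340, twc340_mul, twc340_scal_fixed s _ hz hsz]
    exact ht
  · rw [← map_scal887 i z0 hz0, ← map_mul, trace_map887, hext.val_i, pow_one]
    exact hC.2.1
  · rw [← map_scal887 i z0 hz0, ← map_mul, det_map887, hext.val_i, pow_one]
    exact hC.2.2

/-- The decomposition of the twisted centraliser of `δ` when `N δ` is conjugate to `γ`. -/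
theorem hdec_tw887 {q l : ℕ} {i : k →+* k'} {s : k' ≃+* k'} (hk : IsLocalField k q)
    (hext : IsLocalExt k k' l 1 i s) (δ : GL (Fin 2) k') (γ : GL (Fin 2) k) (hreg : IsReg γ)
    (hne : ¬ HasEigen k γ) (hnr : ¬ HasRamUnif k γ)
    (hconj : IsConj (twNorm s l δ) (Matrix.GeneralLinearGroup.map i γ)) :
    ∀ t, InTwCent s δ t →
      ∃ (z : k') (hz : z ≠ 0), s z = z ∧ InTwCentC s δ (scal340 z hz * t) := by
  obtain ⟨g, hg⟩ := isConj_iff.mp hconj
  have hN : twNorm s l (twc340 s δ g⁻¹) = Matrix.GeneralLinearGroup.map i γ := by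
    unfold twNorm twc340
    rw [twN_twc887, glAut_iterate_eq166 s l hext.cyc.order, inv_inv]
    exact hg
  have hdec' := hdec_tw_exact887 hk hext (twc340 s δ g⁻¹) γ hreg hne hnr hN
  have hδ : twc340 s (twc340 s δ g⁻¹) g = δ := by
    have := twc340_mul_inv_cancel s δ g⁻¹
    rwa [inv_inv] at this
  intro t ht
  have := hdec_twc340 s (twc340 s δ g⁻¹) hdec' g t (by rw [hδ]; exact ht)
  rwa [hδ] at this

end Twisted

/-- **T6.13.3a `VertSumTwC`**, unconditional. -/
theorem vertSumTwC887 : VertSumTwC := by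
  intro k k' _ _ _ _ q l i s hk _ hext _ δ γ hreg hne hnr hconj φ c hc S hS
  obtain ⟨ϖ, hϖ⟩ := hk.unif
  have hfix := hfix_of_unif340 s (ϖ := i ϖ) (by rw [hext.val_i, pow_one, hϖ])
    (hext.cyc.fix_i ϖ)
  have h := twOrbSum_eq_vertexSum340 s hext.val_s hfix δ
    (hdec_tw887 hk hext δ γ hreg hne hnr hconj) (fun lam => φ lam) c hc S
    (fun p hp => hS p (by rwa [twInv_eq_invOf887] at hp))
  rw [h]
  exact Finset.sum_congr rfl (fun p _ => by rw [twInv_eq_invOf887])

end Fermat.Agent.LT.T6.H887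

end
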